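/-
S55 engine E1, block ALG, leaf ALG6 (helper352): Shapiro and the restricted presentation.

`theorem alg6 : ALG6Spec` (exact type of `E1/SpecAlg2.lean`).

* (a)  `δ_D` bijective: `H304.alg1_res_bijective`; naturality `res ∘ δ = δ_D ∘ res`:
       `H783.δ_naturality_map` with `Φ = 𝟙`.
* (b)  `flat φ = (Rep.resCoindHomEquiv φ R X).symm`.
* (c)  both sides are `(map φ (flat φ f) 2) (δ x)`.
-/
import Fermat.Agent.S55.E1.SpecAlg2
import Fermat.Agent.S55.E1.H304.Alg1Res
import Fermat.Agent.S55.H783.Natural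

set_option autoImplicit false

open CategoryTheory CategoryTheory.Limits groupCohomology

namespace Fermat.Agent.S55.E1.H352

open Fermat.Agent.S55.E1

noncomputable section

variable {G D : Type} [Group G] [Group D]

/-- (a), naturality: `res_φ ∘ δ = δ_D ∘ res_φ` for the standard presentation. -/
theorem resAlong_stdδ (φ : D →* G) (N : Rep.{0} ℤ G) (x : groupCohomology N 1) :
    resAlong φ (stdR N) 2 (stdδ N x) = resδ φ N (resAlong φ N 1 x) := by
  have h := Fermat.Agent.S55.H783.δ_naturality_map φ (stdSC_shortExact N)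
    (resSC_shortExact φ N) (𝟙 ((stdSC N).map (Rep.resFunctor φ))) 1 2 rfl
  exact congrArg (fun m => m.hom x) h

/-- (b) `f ↦ f^♭` is the inverse of the adjunction equivalence. -/
theorem flat_eq_symm (φ : D →* G) (R : Rep.{0} ℤ G) (X : Rep.{0} ℤ D)
    (f : R ⟶ Rep.coind φ X) :
    flat φ f = (Rep.resCoindHomEquiv.{0} φ R X).symm f := by
  rfl

theorem flat_bijective (φ : D →* G) (R : Rep.{0} ℤ G) (X : Rep.{0} ℤ D) :
    Function.Bijective (fun f : R ⟶ Rep.coind φ X => flat φ f) := by
  have h : (fun f : R ⟶ Rep.coind φ X => flat φ f) =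
      fun f => (Rep.resCoindHomEquiv.{0} φ R X).symm f := by
    funext f
    exact flat_eq_symm φ R X f
  rw [h]
  exact (Rep.resCoindHomEquiv.{0} φ R X).symm.bijective

/-- (c) compatibility of the pairing with the Shapiro map. -/
theorem sh2_pair (φ : D →* G) (N : Rep.{0} ℤ G) (X : Rep.{0} ℤ D)
    (f : homA N (Rep.coind φ X)) (x : groupCohomology N 1) :
    sh2 φ X (pair f x) = pairLoc φ (flat φ f) (resAlong φ N 1 x) := by
  have h1 : sh2 φ X (pair f x) =
      (groupCohomology.map φ (flat φ f) 2).hom (stdδ N x) := by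
    have := groupCohomology.map_comp (MonoidHom.id G) φ f (H173.ev1Hom φ X) 2
    exact (congrArg (fun m => m.hom (stdδ N x)) this).symm
  have h2 : pairLoc φ (flat φ f) (resAlong φ N 1 x) =
      (groupCohomology.map φ (flat φ f) 2).hom (stdδ N x) := by
    unfold pairLoc
    rw [← resAlong_stdδ]
    have := groupCohomology.map_comp φ (MonoidHom.id D) (𝟙 (Rep.res φ (stdR N))) (flat φ f) 2
    have h3 := (congrArg (fun m => m.hom (stdδ N x)) this).symm
    refine h3.trans ?_
    congr 2
  rw [h1, h2]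

/-- **ALG6.** -/
theorem alg6 : ALG6Spec := by
  intro G D _ _ _ φ hφ N
  refine ⟨H304.alg1_res_bijective N φ hφ, resAlong_stdδ φ N, fun X => ⟨?_, sh2_pair φ N X⟩⟩
  exact flat_bijective φ (stdR N) X

end

end Fermat.Agent.S55.E1.H352
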